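/-
S26 / endgame P, block QUAD: STUBS of the leaves (statements to be proved verbatim in the final files).
Owner: helper86.
-/
import Fermat.Agent.S26.Quad.Nodes

set_option autoImplicit false

universe u

open CategoryTheory CategoryTheory.Limits AlgebraicGeometry NeronModelInfra GoodReductionJacobian

namespace Fermat.Agent.S26.Quad.WIP

variable {K : Type u} [Field K]

/-- Q-TOP (final file `Quad/Top.lean`) -/
theorem quadNode_of_nodes (𝔸 : AbVar K) (hT : TowerNode.{u}) (hF : FibreNode K) (hD : DenseNode K)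
    (hE : EtalePosNode.{u}) (hI : ImageNode 𝔸) (hCM : ConsMapNode 𝔸) (hFI : FibIsoNode 𝔸)
    (hCa : CartNode 𝔸) (hP : PullNode.{u}) (hEm : EmptyNode 𝔸) (hCu : CubeNode 𝔸)
    (hDg : DegNode 𝔸) : QuadNode 𝔸 := by
  sorry

/-- Q-CUBE (final file `Quad/Cube.lean`) -/
theorem cubeNode_of_picTheory (𝔸 : AbVar K) (PT : PicTheory K 𝔸.f 𝔸.L) : CubeNode 𝔸 := by
  sorry

/-- Q-PULL (final file `Quad/Pull.lean`) -/
theorem pullNode : PullNode.{u} := by
  sorry

/-- Q-EMPTY (final file `Quad/Empty.lean`) -/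
theorem emptyNode (𝔸 : AbVar K) : EmptyNode 𝔸 := by
  sorry

/-- Q-FIBISO (final file `Quad/FibIso.lean`) -/
theorem fibIsoNode (𝔸 : AbVar K) : FibIsoNode 𝔸 := by
  sorry

/-- Q-IMAGE (final file `Quad/Image.lean`) -/
theorem imageNode (𝔸 : AbVar K) : ImageNode 𝔸 := by
  sorry

/-- Q-CONSMAP (final file `Quad/ConsMap.lean`) -/
theorem consMapNode (𝔸 : AbVar K) : ConsMapNode 𝔸 := by
  sorry

/-- CART (block, final file `Cart/Main.lean`) -/
theorem cartNode [IsAlgClosed K] (𝔸 : AbVar K) : CartNode 𝔸 := by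
  sorry

/-- DG (block, final file `DG/Main.lean`) -/
theorem degNode [IsAlgClosed K] (𝔸 : AbVar K) : DegNode 𝔸 := by
  sorry

end Fermat.Agent.S26.Quad.WIP
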